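import Fermat.Agent.S37.RIR6652.Ortho

/-!
# S37 / RI-R (helper6652): the lattice lemma `hlat` for a constant reduction

`ConstRed K k O red` mirrors helper1601's `IsConstRed` (same five fields).  Main result
`ConstRed.hlat`: if `x ∈ O` has transcendental reduction and
`[Fb : k(red x)] = [F : K(x)] < ∞`, then every finite-dimensional `K`-subspace `M ⊆ F` has a
`K`-basis inside `O` whose reductions are `k`-linearly independent.  Mathlib only.
-/

set_option autoImplicit false

noncomputable section

namespace Fermat.Agent.S37.RIR6652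

open Polynomial IntermediateField

section lattice

variable (K : Type*) {F : Type*} (k : Type*) {Fb : Type*} [Field K] [Field F] [Algebra K F]
  [Field k] [Field Fb] [Algebra k Fb]

/-- A constant reduction of `F/K` onto `Fb/k` (same fields as helper1601's `IsConstRed`). -/
structure ConstRed (O : ValuationSubring F) (red : O →+* Fb) : Prop where
  surj : Function.Surjective red
  ker : ∀ x : O, red x = 0 ↔ ¬ IsUnit x
  const : ∀ (a : K) (ha : algebraMap K F a ∈ O), ∃ c : k, red ⟨_, ha⟩ = algebraMap k Fb c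
  const_surj : ∀ c : k, ∃ (a : K) (ha : algebraMap K F a ∈ O), red ⟨_, ha⟩ = algebraMap k Fb c
  gauss : ∀ f : F, f ≠ 0 → ∃ a : K, a ≠ 0 ∧ ∃ h : algebraMap K F a * f ∈ O, red ⟨_, h⟩ ≠ 0

variable {K k}
variable {O : ValuationSubring F} {red : O →+* Fb}

theorem ConstRed.val_eq_one (hO : ConstRed K k O red) {y : F} (hy : y ∈ O)
    (h : red ⟨y, hy⟩ ≠ 0) : O.valuation y = 1 := by
  have hu : IsUnit (⟨y, hy⟩ : O) := by
    by_contra hu
    exact h ((hO.ker _).mpr hu)
  exact (O.valuation_eq_one_iff ⟨y, hy⟩).mp hu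

theorem ConstRed.val_lt_one (hO : ConstRed K k O red) {y : F} (hy : y ∈ O)
    (h : red ⟨y, hy⟩ = 0) : O.valuation y < 1 := by
  have h1 := (hO.ker ⟨y, hy⟩).mp h
  rcases lt_or_eq_of_le (O.valuation_le_one ⟨y, hy⟩) with h3 | h3
  · exact h3
  · exact absurd ((O.valuation_eq_one_iff ⟨y, hy⟩).mpr h3) h1

theorem ConstRed.red_eq_zero (hO : ConstRed K k O red) {y : F} (hy : y ∈ O)
    (h : O.valuation y < 1) : red ⟨y, hy⟩ = 0 := by
  rw [hO.ker]
  intro hu
  have := (O.valuation_eq_one_iff ⟨y, hy⟩).mp hu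
  change O.valuation y = 1 at this
  rw [this] at h
  exact lt_irrefl _ h

/-- Orthonormal families in `O` have `k`-linearly independent reductions. -/
theorem ConstRed.linearIndependent_red (hO : ConstRed K k O red) {s : ℕ} (B : Fin s → F)
    (hB : ∀ l, B l ∈ O)
    (h : ∀ (c : Fin s → K) (l : Fin s),
      O.valuation (algebraMap K F (c l)) ≤ O.valuation (∑ l, c l • B l)) :
    LinearIndependent k (fun l => red ⟨B l, hB l⟩) := by
  rw [Fintype.linearIndependent_iff]
  intro g hg
  choose α hα hαg using fun l => hO.const_surj (g l)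
  have hu : ∑ l, α l • B l ∈ O := by
    refine Subring.sum_mem O.toSubring fun l _ => ?_
    rw [Algebra.smul_def]
    exact O.mul_mem _ _ (hα l) (hB l)
  have hred : red ⟨∑ l, α l • B l, hu⟩ = 0 := by
    have h1 : (⟨∑ l, α l • B l, hu⟩ : O)
        = ∑ l, (⟨algebraMap K F (α l), hα l⟩ : O) * ⟨B l, hB l⟩ := by
      apply Subtype.ext
      push_cast
      refine Finset.sum_congr rfl fun l _ => ?_
      rw [Algebra.smul_def]
    rw [h1, map_sum, ← hg]
    refine Finset.sum_congr rfl fun l _ => ?_
    rw [map_mul, hαg, Algebra.smul_def]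
  have hlt := hO.val_lt_one hu hred
  intro l
  have h3 := (h α l).trans_lt hlt
  have h4 := hO.red_eq_zero (hα l) h3
  rw [hαg l] at h4
  exact (map_eq_zero _).mp h4

/-- The `K`-linear map `c ↦ ∑ i, c i (x) * b i` on polynomial vectors. -/
def phi (K : Type*) [Field K] [Algebra K F] (x : F) {n : ℕ} (b : Fin n → F) :
    (Fin n → K[X]) →ₗ[K] F where
  toFun c := ∑ i, aeval x (c i) * b i
  map_add' c c' := by
    simp only [Pi.add_apply, map_add, add_mul, Finset.sum_add_distrib]
  map_smul' a c := by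
    simp only [Pi.smul_apply, map_smul, RingHom.id_apply, Finset.smul_sum, smul_mul_assoc]

theorem phi_apply (x : F) {n : ℕ} (b : Fin n → F) (c : Fin n → K[X]) :
    phi K x b c = ∑ i, aeval x (c i) * b i := rfl

theorem phi_mul (x : F) {n : ℕ} (b : Fin n → F) (p : K[X]) (c : Fin n → K[X]) :
    phi K x b (fun i => p * c i) = aeval x p * phi K x b c := by
  rw [phi_apply, phi_apply, Finset.mul_sum]
  refine Finset.sum_congr rfl fun i _ => ?_
  rw [map_mul, mul_assoc]

/-- The coordinate functionals on polynomial vectors. -/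
def lamc (K : Type*) [Field K] (n : ℕ) (p : Fin n × ℕ) : (Fin n → K[X]) →ₗ[K] K :=
  (Polynomial.lcoeff K p.2).comp (LinearMap.proj p.1)

theorem lamc_apply (n : ℕ) (p : Fin n × ℕ) (c : Fin n → K[X]) :
    lamc K n p c = (c p.1).coeff p.2 := rfl

/-- A polynomial vector with coefficients in `O`, one of them equal to `1`, maps to a unit. -/
theorem ConstRed.phi_unit (hO : ConstRed K k O red) {x : F} (hxO : x ∈ O)
    (hx : Transcendental k (red ⟨x, hxO⟩)) {n : ℕ} {b : Fin n → F} (hb : ∀ i, b i ∈ O)
    (hβ : LinearIndependent k⟮red ⟨x, hxO⟩⟯ (fun i => red ⟨b i, hb i⟩))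
    (c : Fin n → K[X]) (hc : ∀ i j, algebraMap K F ((c i).coeff j) ∈ O) (i1 : Fin n) (j1 : ℕ)
    (h1 : (c i1).coeff j1 = 1) : O.valuation (phi K x b c) = 1 := by
  -- the subring of integral constants
  obtain ⟨AK, hAK⟩ : ∃ AK : Subring K, AK = O.toSubring.comap (algebraMap K F) := ⟨_, rfl⟩
  have hmemAK : ∀ a : K, a ∈ AK ↔ algebraMap K F a ∈ O := by
    intro a; rw [hAK]; rfl
  let ρ0 : AK →+* O := (algebraMap K F).restrict AK O (fun a ha => (hmemAK a).mp ha)
  have hlift : ∀ i, ∃ P : AK[X], P.map AK.subtype = c i := by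
    intro i
    have : c i ∈ Polynomial.lifts AK.subtype := by
      rw [Polynomial.lifts_iff_coeff_lifts]
      intro j
      exact ⟨⟨(c i).coeff j, (hmemAK _).mpr (hc i j)⟩, rfl⟩
    exact (Polynomial.mem_lifts _).mp this
  choose P hP using hlift
  let X0 : O := ⟨x, hxO⟩
  have hE : ∀ i, ((eval₂ ρ0 X0 (P i) : O) : F) = aeval x (c i) := by
    intro i
    have e1 := Polynomial.hom_eval₂ (P i) ρ0 O.subtype X0
    have e2 : O.subtype.comp ρ0 = (algebraMap K F).comp AK.subtype := RingHom.ext fun a => rfl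
    rw [e2] at e1
    rw [← hP i, aeval_def, eval₂_map]
    exact e1
  -- the value in `O`
  obtain ⟨U, hU⟩ : ∃ U : O, U = ∑ i, eval₂ ρ0 X0 (P i) * ⟨b i, hb i⟩ := ⟨_, rfl⟩
  have hUF : (U : F) = phi K x b c := by
    rw [hU, phi_apply]
    push_cast
    refine Finset.sum_congr rfl fun i _ => ?_
    rw [hE i]
  -- reduction of the coefficients
  have hQ : ∀ i, ∃ q : k[X], q.map (algebraMap k Fb) = (P i).map (red.comp ρ0) := by
    intro i
    have : (P i).map (red.comp ρ0) ∈ Polynomial.lifts (algebraMap k Fb) := by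
      rw [Polynomial.lifts_iff_coeff_lifts]
      intro j
      rw [coeff_map]
      obtain ⟨e, he⟩ := hO.const (((P i).coeff j : AK) : K) ((hmemAK _).mp ((P i).coeff j).2)
      exact ⟨e, he.symm⟩
    exact (Polynomial.mem_lifts _).mp this
  choose q hq using hQ
  have hredE : ∀ i, red (eval₂ ρ0 X0 (P i)) = aeval (red X0) (q i) := by
    intro i
    rw [Polynomial.hom_eval₂, aeval_def, ← eval_map, ← eval_map, hq i]
  have hredU : red U = ∑ i, aeval (red X0) (q i) * red ⟨b i, hb i⟩ := by
    rw [hU, map_sum]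
    refine Finset.sum_congr rfl fun i _ => ?_
    rw [map_mul, hredE i]
  have hUne : red U ≠ 0 := by
    intro h0
    rw [hredU] at h0
    have hmem : ∀ i, aeval (red X0) (q i) ∈ k⟮red X0⟯ := fun i =>
      (IntermediateField.algebra_adjoin_le_adjoin k {red X0})
        (Polynomial.aeval_mem_adjoin_singleton k (red X0))
    have hli := Fintype.linearIndependent_iff.mp hβ (fun i => ⟨aeval (red X0) (q i), hmem i⟩) h0
    have hq1 : aeval (red X0) (q i1) = 0 := congrArg Subtype.val (hli i1)
    have hq10 : q i1 = 0 := by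
      by_contra hne
      exact (transcendental_iff.mp hx) (q i1) hq1 |> hne
    have hcoef := congrArg (fun p => p.coeff j1) (hq i1)
    simp only [hq10, Polynomial.map_zero, coeff_zero, coeff_map] at hcoef
    have hP1 : (P i1).coeff j1 = 1 := by
      apply Subtype.ext
      have := congrArg (fun p => p.coeff j1) (hP i1)
      simp only [coeff_map] at this
      rw [h1] at this
      exact this
    rw [hP1, map_one] at hcoef
    exact zero_ne_one hcoef
  rw [← hUF]
  exact hO.val_eq_one U.2 hUne

/-- Orthonormality of `phi` with respect to the coefficient coordinates. -/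
theorem ConstRed.isON_phi (hO : ConstRed K k O red) {x : F} (hxO : x ∈ O)
    (hx : Transcendental k (red ⟨x, hxO⟩)) {n : ℕ} {b : Fin n → F} (hb : ∀ i, b i ∈ O)
    (hβ : LinearIndependent k⟮red ⟨x, hxO⟩⟯ (fun i => red ⟨b i, hb i⟩)) :
    IsON O.valuation (phi K x b) (lamc K n) := by
  have key : ∀ w : Fin n → K[X], w ≠ 0 → ∃ p1 : Fin n × ℕ, lamc K n p1 w ≠ 0 ∧
      O.valuation (phi K x b w) = O.valuation (algebraMap K F (lamc K n p1 w)) ∧
      ∀ p, O.valuation (algebraMap K F (lamc K n p w)) ≤ O.valuation (phi K x b w) := by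
    intro w hw
    obtain ⟨i0, hi0⟩ : ∃ i0, w i0 ≠ 0 := by
      by_contra hcon
      push Not at hcon
      exact hw (funext hcon)
    obtain ⟨Bd, hBd⟩ : ∃ Bd : ℕ, Bd = Finset.univ.sup (fun i => (w i).natDegree) := ⟨_, rfl⟩
    have hne : (Finset.univ ×ˢ Finset.range (Bd + 1) : Finset (Fin n × ℕ)).Nonempty :=
      ⟨(i0, 0), by simp⟩
    obtain ⟨p1, -, hmax⟩ := Finset.exists_max_image _
      (fun p : Fin n × ℕ => O.valuation (algebraMap K F ((w p.1).coeff p.2))) hne
    have hall : ∀ p : Fin n × ℕ, O.valuation (algebraMap K F ((w p.1).coeff p.2))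
        ≤ O.valuation (algebraMap K F ((w p1.1).coeff p1.2)) := by
      intro p
      by_cases hp : p.2 < Bd + 1
      · exact hmax p (by simp [hp])
      · have hdeg : (w p.1).natDegree < p.2 := by
          have h1 : (w p.1).natDegree ≤ Bd := by
            rw [hBd]
            exact Finset.le_sup (f := fun i => (w i).natDegree) (Finset.mem_univ p.1)
          omega
        rw [coeff_eq_zero_of_natDegree_lt hdeg, map_zero, map_zero]
        exact zero_le
    obtain ⟨a, ha⟩ : ∃ a : K, a = (w p1.1).coeff p1.2 := ⟨_, rfl⟩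
    rw [← ha] at hall
    have ha0 : a ≠ 0 := by
      rintro rfl
      apply hw
      funext i
      ext j
      have := hall (i, j)
      rw [map_zero, map_zero] at this
      have h2 : algebraMap K F ((w i).coeff j) = 0 :=
        (Valuation.zero_iff _).mp (le_antisymm this zero_le)
      simpa using (map_eq_zero _).mp h2
    have haF : algebraMap K F a ≠ 0 := (_root_.map_ne_zero _).mpr ha0
    have hvaF : O.valuation (algebraMap K F a) ≠ 0 := (Valuation.ne_zero_iff _).mpr haF
    have hunit : O.valuation (phi K x b (a⁻¹ • w)) = 1 := by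
      refine hO.phi_unit hxO hx hb hβ (a⁻¹ • w) ?_ p1.1 p1.2 ?_
      · intro i j
        rw [← O.valuation_le_one_iff, Pi.smul_apply, coeff_smul, smul_eq_mul, map_mul, map_mul,
          map_inv₀, map_inv₀]
        have := hall (i, j)
        calc (O.valuation (algebraMap K F a))⁻¹ * O.valuation (algebraMap K F ((w i).coeff j))
            ≤ (O.valuation (algebraMap K F a))⁻¹ * O.valuation (algebraMap K F a) :=
              mul_le_mul' le_rfl this
          _ = 1 := inv_mul_cancel₀ hvaF
      · rw [Pi.smul_apply, coeff_smul, smul_eq_mul, ← ha, inv_mul_cancel₀ ha0]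
    have hval : O.valuation (phi K x b w) = O.valuation (algebraMap K F a) := by
      rw [map_smul, valuation_smul, map_inv₀, map_inv₀] at hunit
      have := congrArg (fun t => O.valuation (algebraMap K F a) * t) hunit
      simp only [mul_one] at this
      rw [← this, ← mul_assoc, mul_inv_cancel₀ hvaF, one_mul]
    refine ⟨p1, ?_, ?_, ?_⟩
    · rw [lamc_apply, ← ha]; exact ha0
    · rw [lamc_apply, ← ha]; exact hval
    · intro p
      rw [lamc_apply, hval]
      exact hall p
  refine ⟨fun w p => ?_, fun w hw => ?_⟩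
  · rcases eq_or_ne w 0 with rfl | hw
    · rw [map_zero, map_zero, map_zero]
      exact zero_le
    · obtain ⟨_, _, _, h3⟩ := key w hw
      exact h3 p
  · obtain ⟨p1, h1, h2, _⟩ := key w hw
    exact ⟨p1, h1, h2⟩

theorem exists_frac (x : F) (g : K⟮x⟯) :
    ∃ r s : K[X], aeval x s ≠ 0 ∧ (g : F) * aeval x s = aeval x r := by
  obtain ⟨r, s, h⟩ := (IntermediateField.mem_adjoin_simple_iff K (g : F)).mp g.2
  by_cases hs : aeval x s = 0
  · refine ⟨0, 1, by simp, ?_⟩
    rw [h, hs, div_zero]
    simp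
  · exact ⟨r, s, hs, by rw [h]; field_simp⟩

theorem exists_clear_denominators (x : F) {n : ℕ} (g : Fin n → K⟮x⟯) :
    ∃ (d : K[X]) (c : Fin n → K[X]), aeval x d ≠ 0 ∧
      ∀ i, (g i : F) * aeval x d = aeval x (c i) := by
  choose r s hs h using fun i => exists_frac x (g i)
  refine ⟨∏ i, s i, fun i => r i * ∏ l ∈ Finset.univ.erase i, s l, ?_, fun i => ?_⟩
  · rw [map_prod]
    exact Finset.prod_ne_zero_iff.mpr fun i _ => hs i
  · rw [← Finset.mul_prod_erase Finset.univ s (Finset.mem_univ i), map_mul, map_mul, ← mul_assoc,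
      h i]

theorem span_eq_top_of_isON {Γ : Type*} [LinearOrderedCommGroupWithZero Γ] {v : Valuation F Γ}
    {x : F} {n : ℕ} {b : Fin n → F} [FiniteDimensional K⟮x⟯ F]
    (hfin : Module.finrank K⟮x⟯ F = n) (hON : IsON v (phi K x b) (lamc K n)) :
    Submodule.span K⟮x⟯ (Set.range b) = ⊤ := by
  have hli : LinearIndependent K⟮x⟯ b := by
    rw [Fintype.linearIndependent_iff]
    intro g hg
    obtain ⟨d, c, hd, hc⟩ := exists_clear_denominators x g
    have hphi : phi K x b c = 0 := by
      rw [phi_apply]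
      have : ∑ i, aeval x (c i) * b i = aeval x d * ∑ i, g i • b i := by
        rw [Finset.mul_sum]
        refine Finset.sum_congr rfl fun i _ => ?_
        rw [← hc i]
        show (g i : F) * aeval x d * b i = aeval x d * ((g i : F) * b i)
        ring
      rw [this, hg, mul_zero]
    have hc0 : c = 0 := by
      by_contra hne
      exact hON.phi_ne_zero hne hphi
    intro i
    have h1 := hc i
    rw [hc0, Pi.zero_apply, map_zero] at h1
    have h2 : (g i : F) = 0 := by
      rcases mul_eq_zero.mp h1 with h | h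
      · exact h
      · exact absurd h hd
    exact Subtype.ext h2
  exact hli.span_eq_top_of_card_eq_finrank' (by rw [Fintype.card_fin, hfin])

/-- **The lattice lemma.** -/
theorem ConstRed.hlat (hO : ConstRed K k O red) {x : F} (hxO : x ∈ O)
    (hx : Transcendental k (red ⟨x, hxO⟩)) [FiniteDimensional K⟮x⟯ F]
    (hfin : Module.finrank k⟮red ⟨x, hxO⟩⟯ Fb = Module.finrank K⟮x⟯ F) :
    ∀ M : Submodule K F, FiniteDimensional K M →
      ∃ b : Fin (Module.finrank K M) → F, ∃ hb : ∀ i, b i ∈ O, (∀ i, b i ∈ M) ∧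
        LinearIndependent k (fun i => red ⟨b i, hb i⟩) := by
  intro M hM
  obtain ⟨n, hn⟩ : ∃ n : ℕ, n = Module.finrank K⟮x⟯ F := ⟨_, rfl⟩
  have hnpos : 0 < n := by rw [hn]; exact Module.finrank_pos
  rw [← hn] at hfin
  have : Module.Finite k⟮red ⟨x, hxO⟩⟯ Fb :=
    Module.finite_of_finrank_pos (by rw [hfin]; exact hnpos)
  let β := Module.finBasisOfFinrankEq k⟮red ⟨x, hxO⟩⟯ Fb hfin
  choose b0 hb0 using fun i => hO.surj (β i)
  let b : Fin n → F := fun i => (b0 i : F)
  have hb : ∀ i, b i ∈ O := fun i => (b0 i).2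
  have hβ : LinearIndependent k⟮red ⟨x, hxO⟩⟯ (fun i => red ⟨b i, hb i⟩) := by
    have : (fun i => red ⟨b i, hb i⟩) = fun i => β i := funext fun i => hb0 i
    rw [this]
    exact β.linearIndependent
  have hON := hO.isON_phi hxO hx hb hβ
  have hspan := span_eq_top_of_isON hn.symm hON
  -- a basis of `M` and its coordinates
  let μ := Module.finBasis K M
  have hcoord : ∀ l, ∃ (d : K[X]) (c : Fin n → K[X]), aeval x d ≠ 0 ∧
      phi K x b c = aeval x d * (μ l : F) := by
    intro l
    have hmem : (μ l : F) ∈ Submodule.span K⟮x⟯ (Set.range b) := by rw [hspan]; trivial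
    obtain ⟨g, hg⟩ := (Submodule.mem_span_range_iff_exists_fun K⟮x⟯).mp hmem
    obtain ⟨d, c, hd, hc⟩ := exists_clear_denominators x g
    refine ⟨d, c, hd, ?_⟩
    rw [phi_apply, ← hg, Finset.mul_sum]
    refine Finset.sum_congr rfl fun i _ => ?_
    rw [← hc i]
    show (g i : F) * aeval x d * b i = aeval x d * ((g i : F) * b i)
    ring
  choose d c hd hc using hcoord
  obtain ⟨δ, hδ⟩ : ∃ δ : F, δ = aeval x (∏ l, d l) := ⟨_, rfl⟩
  have hδ0 : δ ≠ 0 := by
    rw [hδ, map_prod]
    exact Finset.prod_ne_zero_iff.mpr fun l _ => hd l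
  obtain ⟨w, hw⟩ : ∃ w : Fin (Module.finrank K M) → Fin n → K[X],
      w = fun l i => (∏ l' ∈ Finset.univ.erase l, d l') * c l i := ⟨_, rfl⟩
  have hphiw : ∀ l, phi K x b (w l) = δ * (μ l : F) := by
    intro l
    rw [hw, phi_mul, hc l, hδ, ← Finset.mul_prod_erase Finset.univ d (Finset.mem_univ l), map_mul]
    ring
  have hwli : LinearIndependent K w := by
    rw [Fintype.linearIndependent_iff]
    intro g hg
    have h1 : phi K x b (∑ l, g l • w l) = δ * ((∑ l, g l • μ l : M) : F) := by
      rw [map_sum]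
      push_cast
      rw [Finset.mul_sum]
      refine Finset.sum_congr rfl fun l _ => ?_
      rw [map_smul, hphiw l, mul_smul_comm]
    rw [hg, map_zero] at h1
    have h2 : ((∑ l, g l • μ l : M) : F) = 0 := by
      rcases mul_eq_zero.mp h1.symm with h | h
      · exact absurd h hδ0
      · exact h
    have h3 : ∑ l, g l • μ l = 0 := Subtype.ext h2
    exact Fintype.linearIndependent_iff.mp μ.linearIndependent g h3
  obtain ⟨m, hmspan, hmv, hmc⟩ := exists_orthonormal hON _ w hwli
  obtain ⟨a, ha0, hamem, hared⟩ := hO.gauss δ hδ0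
  have hv1 : O.valuation (algebraMap K F a * δ) = 1 := hO.val_eq_one hamem hared
  obtain ⟨δ', hδ'⟩ : ∃ δ' : F, δ' = algebraMap K F a * δ := ⟨_, rfl⟩
  rw [← hδ'] at hv1
  have haF : algebraMap K F a ≠ 0 := (_root_.map_ne_zero _).mpr ha0
  have hδ'0 : δ' ≠ 0 := by rw [hδ']; exact mul_ne_zero haF hδ0
  have hB : ∀ l, phi K x b (m l) / δ' ∈ O := by
    intro l
    rw [← O.valuation_le_one_iff, map_div₀, hv1, div_one]
    exact hmv l
  have hBM : ∀ l, phi K x b (m l) / δ' ∈ M := by
    intro l
    have hgen : ∀ y ∈ Submodule.span K (Set.range w), phi K x b y / δ' ∈ M := by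
      intro y hy
      induction hy using Submodule.span_induction with
      | mem y hy =>
        obtain ⟨l', rfl⟩ := hy
        rw [hphiw l', hδ']
        have : δ * (μ l' : F) / (algebraMap K F a * δ) = a⁻¹ • (μ l' : F) := by
          rw [Algebra.smul_def, map_inv₀]
          field_simp
        rw [this]
        exact M.smul_mem _ (μ l').2
      | zero => rw [map_zero, zero_div]; exact M.zero_mem
      | add y z _ _ hy hz => rw [map_add, add_div]; exact M.add_mem hy hz
      | smul t y _ hy => rw [map_smul, smul_div_assoc]; exact M.smul_mem _ hy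
    exact hgen _ (hmspan l)
  refine ⟨fun l => phi K x b (m l) / δ', hB, hBM, ?_⟩
  refine hO.linearIndependent_red _ hB fun cc l => ?_
  have h1 : ∑ l, cc l • (phi K x b (m l) / δ') = phi K x b (∑ l, cc l • m l) / δ' := by
    rw [map_sum, Finset.sum_div]
    refine Finset.sum_congr rfl fun l _ => ?_
    rw [map_smul, smul_div_assoc]
  rw [h1, map_div₀, hv1, div_one]
  exact hmc cc l

end lattice

end Fermat.Agent.S37.RIR6652
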