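import Fermat.Agent.S37.RIR6652.GaussRing
import Fermat.Agent.S37.RIR6652.LatticeGauss
import Fermat.Agent.S18.CORE6652.AdmLemmas
import Fermat.Agent.S37.RINB.RiemannMod
import Fermat.Agent.RIN.H6100.Main

/-!
# S37 / RI-R (helper6652): Bind — the leaf `exists_isPlaceReductionModL` from the frozen S18 exports

* Gauss data: `gaussHyp` = `GaussHyp` for `R = Adm A (Fb N) (Ft A N)`, `gen = genHom`, `red = redHom`
  (Gauss normal form `MODFF4186.gauss_Fb` = R4 + R3 + R2; `Ft = Frac (red R)` from the generators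
  `j(q^d)`, `d ∣ N`); hence the Gauss valuation ring `GaussHyp.ring` with `GaussHyp.redO`.
* lattice property: `ConstRed.hlat` with `x = j` (R5: `transcendental_jt`, `finrank_Ft`).
* Riemann on both sides with one constant: helper3463 `RINB.exists_riemann_constants`
  (frozen RT + `MODFF4186.genus_le`, which uses Theorem T).
* abstract Deuring theorem: helper6100 `RIN.H6100.exists_placeReduction`.
-/

set_option autoImplicit false
set_option synthInstance.maxHeartbeats 400000

noncomputable section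

namespace Fermat.Agent.S37.RIR6652

open ModularCurve AlgebraicCurve IntermediateField Fermat.Agent.S18 Fermat.Agent.S18.CORE6652

variable {ℓ : ℕ} [Fact ℓ.Prime] (A : ValuationSubring (AlgebraicClosure ℚ)) (N : ℕ) [NeZero N]

omit [NeZero N] in
/-- `j(q^d)`, `d ∣ N`, is an admissible series. -/
theorem jd_mem_Adm {d : ℕ} [NeZero d] (hd : d ∣ N) :
    qExpand A d (jqModC A) ∈ Adm A (Fb N) (Ft A N) := by
  rw [mem_Adm, coeffMap_qExpand, coeffMap_qExpand, coeffMap_jqModC, coeffMap_jqModC]
  refine ⟨?_, jqModCd_mem_full _ N hd⟩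
  have h := coeffEmb_mem_laurentBaseChange (L := AlgebraicClosure ℚ) (jqd_mem_full N hd)
  have e : coeffEmb (AlgebraicClosure ℚ) (qExpand ℚ d jq) =
      qExpand (AlgebraicClosure ℚ) d (jqModC (AlgebraicClosure ℚ)) := by
    rw [coeffEmb, ← jqModC_rat, coeffMap_qExpand, coeffMap_jqModC]
  rw [← e]
  exact h

omit [NeZero N] in
/-- `Ft` is the field of fractions of the reductions of admissible series. -/
theorem red_surj_Ft (φ : Ft A N) :
    ∃ a b : Adm A (Fb N) (Ft A N), redHom A (Fb N) (Ft A N) b ≠ 0 ∧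
      φ * redHom A (Fb N) (Ft A N) b = redHom A (Fb N) (Ft A N) a := by
  have key : ∀ x (hx : x ∈ Ft A N), ∃ a b : Adm A (Fb N) (Ft A N),
      coeffMap (IsLocalRing.residue A) (b : LaurentSeries A) ≠ 0 ∧
      x * coeffMap (IsLocalRing.residue A) (b : LaurentSeries A) =
        coeffMap (IsLocalRing.residue A) (a : LaurentSeries A) := by
    intro x hx
    induction hx using IntermediateField.adjoin_induction with
    | mem x hx =>
      obtain ⟨d, hd0, hd, rfl⟩ := hx
      refine ⟨⟨_, jd_mem_Adm A N hd⟩, 1, ?_, ?_⟩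
      · rw [OneMemClass.coe_one, map_one]; exact one_ne_zero
      · rw [OneMemClass.coe_one, map_one, mul_one, coeffMap_qExpand, coeffMap_jqModC]
    | algebraMap c =>
      obtain ⟨a, rfl⟩ := Ideal.Quotient.mk_surjective c
      refine ⟨constAdm A _ _ a, 1, ?_, ?_⟩
      · rw [OneMemClass.coe_one, map_one]; exact one_ne_zero
      · rw [OneMemClass.coe_one, map_one, mul_one]
        have := congrArg Subtype.val (redHom_constAdm (Fb := Fb N) (Ft := Ft A N) a)
        exact this.symm
    | add x y _ _ hx hy =>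
      obtain ⟨a, b, hb, h⟩ := hx
      obtain ⟨a', b', hb', h'⟩ := hy
      refine ⟨a * b' + a' * b, b * b', ?_, ?_⟩
      · rw [Subring.coe_mul, map_mul]; exact mul_ne_zero hb hb'
      · rw [Subring.coe_mul, Subring.coe_add, Subring.coe_mul, Subring.coe_mul, map_mul, map_add,
          map_mul, map_mul, ← h, ← h']
        ring
    | inv x _ hx =>
      obtain ⟨a, b, hb, h⟩ := hx
      by_cases ha : coeffMap (IsLocalRing.residue A) (a : LaurentSeries A) = 0
      · have hx0 : x = 0 := by
          rw [ha] at h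
          rcases mul_eq_zero.mp h with h | h
          · exact h
          · exact absurd h hb
        refine ⟨0, 1, ?_, ?_⟩
        · rw [OneMemClass.coe_one, map_one]; exact one_ne_zero
        · rw [hx0, inv_zero, zero_mul, ZeroMemClass.coe_zero, map_zero]
      · refine ⟨b, a, ha, ?_⟩
        rw [← h]
        have hx0 : x ≠ 0 := by
          rintro rfl
          rw [zero_mul] at h
          exact ha h.symm
        field_simp
    | mul x y _ _ hx hy =>
      obtain ⟨a, b, hb, h⟩ := hx
      obtain ⟨a', b', hb', h'⟩ := hy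
      refine ⟨a * a', b * b', ?_, ?_⟩
      · rw [Subring.coe_mul, map_mul]; exact mul_ne_zero hb hb'
      · rw [Subring.coe_mul, Subring.coe_mul, map_mul, map_mul, ← h, ← h']
        ring
  obtain ⟨a, b, hb, h⟩ := key φ φ.2
  exact ⟨a, b, fun h0 => hb (congrArg Subtype.val h0), Subtype.ext h⟩

variable {A N}

/-- The Gauss hypotheses for the modular fields. -/
theorem gaussHyp (hℓN : ¬ ℓ ∣ N) (hA : A.LiesOverPrime ℓ) :
    GaussHyp (AlgebraicClosure ℚ) (IsLocalRing.ResidueField A)
      (genHom A (Fb N) (Ft A N)) (redHom A (Fb N) (Ft A N)) where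
  gen_ne := fun _ h => genHom_ne_zero_of_redHom_ne_zero h
  tri := fun c hc => by
    rcases const_trichotomy A hc with ⟨a, ha, h0⟩ | ⟨a, ha, h0⟩ | ⟨a, ha, h0⟩
    · exact Or.inl ⟨constAdm A _ _ a, by rw [genHom_constAdm, ha],
        by rw [redHom_constAdm, h0, map_zero]⟩
    · exact Or.inr (Or.inl ⟨constAdm A _ _ a, by rw [genHom_constAdm, ha],
        by rw [redHom_constAdm, h0, map_zero]⟩)
    · exact Or.inr (Or.inr ⟨constAdm A _ _ a, by rw [genHom_constAdm, ha], _, h0,
        redHom_constAdm a⟩)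
  hGauss := fun f hf => MODFF4186.gauss_Fb hℓN hA f hf
  const_surj := fun e => by
    obtain ⟨a, rfl⟩ := Ideal.Quotient.mk_surjective e
    exact ⟨(a : AlgebraicClosure ℚ), constAdm A _ _ a, genHom_constAdm a, redHom_constAdm a⟩
  red_surj := red_surj_Ft A N

/-- **RI-R**: the place reduction map with conservation of number (on the frozen S18 exports). -/
theorem exists_isPlaceReductionModL_bind (hℓN : ¬ ℓ ∣ N) (hA : A.LiesOverPrime ℓ) :
    ∃ r : Place (AlgebraicClosure ℚ) (modularFunctionFieldBar N) →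
        Place (IsLocalRing.ResidueField A)
          (modularFunctionFieldFullC (IsLocalRing.ResidueField A) N),
      IsPlaceReductionModL A N r := by
  have H := gaussHyp (N := N) hℓN hA
  have hC : ConstRed (AlgebraicClosure ℚ) (IsLocalRing.ResidueField A) H.ring H.redO :=
    ⟨H.redO_surj, H.redO_eq_zero_iff, H.redO_const, H.redO_const_surj, H.redO_gauss⟩
  have hO : Fermat.Agent.RIN.IsConstRed (AlgebraicClosure ℚ) (IsLocalRing.ResidueField A)
      H.ring H.redO := ⟨hC.surj, hC.ker, hC.const, hC.const_surj, hC.gauss⟩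
  have hgj : genHom A (Fb N) (Ft A N) (MODFF4186.jAdm A N) = jb N := MODFF4186.genOf_jAdm A N
  have hrj : redHom A (Fb N) (Ft A N) (MODFF4186.jAdm A N) = jt A N := MODFF4186.redOf_jAdm A N
  have hxO : jb N ∈ H.ring := hgj ▸ H.gen_mem (MODFF4186.jAdm A N)
  have hxred : H.redO ⟨jb N, hxO⟩ = jt A N := by
    have h1 := H.redO_gen (MODFF4186.jAdm A N)
    rw [hrj] at h1
    have h2 : (⟨jb N, hxO⟩ : H.ring) =
        ⟨genHom A (Fb N) (Ft A N) (MODFF4186.jAdm A N), H.gen_mem _⟩ := Subtype.ext hgj.symm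
    rw [h2, h1]
  have := MODFF4186.finiteDimensional_jb N
  have hlat := hC.hlat hxO (by rw [hxred]; exact transcendental_jt hA)
    (by rw [hxred]; exact finrank_Ft hℓN hA)
  have := RINB.infinite_residueField A
  have := RINB.nonempty_place_Fb N
  have := RINB.nonempty_place_Ft (N := N) hℓN hA
  have := RINB.hasPrincipalDivisors_Fb N
  have := RINB.hasPrincipalDivisors_Ft (N := N) hℓN hA
  obtain ⟨γ, hRF, hRFb, hRFb'⟩ := RINB.exists_riemann_constants (N := N) hℓN hA
  obtain ⟨r, hdeg, hr⟩ := Fermat.Agent.RIN.H6100.exists_placeReduction H.ring H.redO hO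
    (fun P => MODFF4186.deg_Fb P) (MODFF4186.deg_Ft hℓN hA) γ hRF hRFb hRFb' hlat
  refine ⟨r, hdeg, fun y hy hyk hne D hD Q => ?_⟩
  have hmem := H.gen_mem (⟨y, hy, hyk⟩ : Adm A (Fb N) (Ft A N))
  have hred := H.redO_gen (⟨y, hy, hyk⟩ : Adm A (Fb N) (Ft A N))
  have hne' : H.redO ⟨_, hmem⟩ ≠ 0 := by
    rw [hred]
    intro h0
    exact hne (congrArg Subtype.val h0)
  have := hr _ hmem hne' D hD Q
  rw [hred] at this
  exact this

end Fermat.Agent.S37.RIR6652
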