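import Mathlib

/-!
# S37 / RI-R (helper6652): the Gauss valuation ring of a constant reduction (abstract)

Setting: fields `Fb / L` ("generic function field") and `Ft / k` ("special function field"), a
commutative ring `R` ("admissible series") with ring homs `gen : R →+* Fb`, `red : R →+* Ft`.
Under `GaussHyp gen red` (Gauss normal form + trichotomy of constants) we construct

* `GaussHyp.ring : ValuationSubring Fb` = `{ f | ∃ a b, red b ≠ 0 ∧ f * gen b = gen a }`,
* `GaussHyp.redO : ring →+* Ft`, `f ↦ red a / red b`,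

and prove the five fields of helper1601's `IsConstRed` (surjective, kernel = non-units, constants
reduce to constants and onto them, Gauss form) together with `redO (gen y) = red y`.
Mathlib only.
-/

set_option autoImplicit false

noncomputable section

namespace Fermat.Agent.S37.RIR6652

section gauss

variable {L k Fb Ft R : Type*} [Field L] [Field k] [Field Fb] [Field Ft] [Algebra L Fb]
  [Algebra k Ft] [CommRing R]

/-- Abstract Gauss-normal-form hypotheses. -/
structure GaussHyp (L k : Type*) [Field L] [Field k] [Algebra L Fb] [Algebra k Ft]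
    (gen : R →+* Fb) (red : R →+* Ft) : Prop where
  gen_ne : ∀ y : R, red y ≠ 0 → gen y ≠ 0
  tri : ∀ c : L, c ≠ 0 →
    (∃ a : R, gen a = algebraMap L Fb c ∧ red a = 0) ∨
    (∃ a : R, gen a = algebraMap L Fb c⁻¹ ∧ red a = 0) ∨
    (∃ a : R, gen a = algebraMap L Fb c ∧ ∃ e : k, e ≠ 0 ∧ red a = algebraMap k Ft e)
  hGauss : ∀ f : Fb, f ≠ 0 → ∃ (c : L) (y₁ y₂ : R), c ≠ 0 ∧ red y₁ ≠ 0 ∧ red y₂ ≠ 0 ∧
    f * gen y₂ = algebraMap L Fb c * gen y₁
  const_surj : ∀ e : k, ∃ (c : L) (w : R), gen w = algebraMap L Fb c ∧ red w = algebraMap k Ft e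
  red_surj : ∀ φ : Ft, ∃ a b : R, red b ≠ 0 ∧ φ * red b = red a

namespace GaussHyp

variable {gen : R →+* Fb} {red : R →+* Ft} (H : GaussHyp L k gen red)

include H in
theorem red_eq_zero_of_gen_eq_zero {y : R} (h : gen y = 0) : red y = 0 := by
  by_contra h0
  exact H.gen_ne y h0 h

include H in
/-- Well-definedness of the reduction of a fraction. -/
theorem red_cross {f : Fb} {a b a' b' : R} (h : f * gen b = gen a) (h' : f * gen b' = gen a') :
    red a * red b' = red a' * red b := by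
  have h0 : gen (a * b' - a' * b) = 0 := by
    rw [map_sub, map_mul, map_mul, ← h, ← h']
    ring
  have := H.red_eq_zero_of_gen_eq_zero h0
  rw [map_sub, map_mul, map_mul, sub_eq_zero] at this
  exact this

/-- The Gauss valuation ring. -/
def ring : ValuationSubring Fb where
  carrier := {f | ∃ a b : R, red b ≠ 0 ∧ f * gen b = gen a}
  mul_mem' := by
    rintro f g ⟨a, b, hb, h⟩ ⟨a', b', hb', h'⟩
    refine ⟨a * a', b * b', ?_, ?_⟩
    · rw [map_mul]; exact mul_ne_zero hb hb'
    · rw [map_mul, map_mul, ← h, ← h']; ring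
  one_mem' := ⟨1, 1, by rw [map_one]; exact one_ne_zero, by rw [map_one, mul_one]⟩
  add_mem' := by
    rintro f g ⟨a, b, hb, h⟩ ⟨a', b', hb', h'⟩
    refine ⟨a * b' + a' * b, b * b', ?_, ?_⟩
    · rw [map_mul]; exact mul_ne_zero hb hb'
    · rw [map_add, map_mul, map_mul, map_mul, ← h, ← h']; ring
  zero_mem' := ⟨0, 1, by rw [map_one]; exact one_ne_zero, by rw [map_zero, zero_mul]⟩
  neg_mem' := by
    rintro f ⟨a, b, hb, h⟩
    exact ⟨-a, b, hb, by rw [map_neg, ← h]; ring⟩
  mem_or_inv_mem' := by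
    intro f
    rcases eq_or_ne f 0 with rfl | hf
    · exact Or.inl ⟨0, 1, by rw [map_one]; exact one_ne_zero, by rw [map_zero, zero_mul]⟩
    obtain ⟨c, y₁, y₂, hc, h1, h2, h⟩ := H.hGauss f hf
    rcases H.tri c hc with ⟨w, hw, -⟩ | ⟨w, hw, -⟩ | ⟨w, hw, -⟩
    · exact Or.inl ⟨w * y₁, y₂, h2, by rw [map_mul, hw, h]⟩
    · refine Or.inr ⟨w * y₂, y₁, h1, ?_⟩
      have hcF : algebraMap L Fb c ≠ 0 := (map_ne_zero _).mpr hc
      have hg2 : gen y₂ ≠ 0 := H.gen_ne _ h2
      rw [map_mul, hw, map_inv₀]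
      field_simp
      linear_combination -h
    · exact Or.inl ⟨w * y₁, y₂, h2, by rw [map_mul, hw, h]⟩

theorem mem_ring {f : Fb} : f ∈ H.ring ↔ ∃ a b : R, red b ≠ 0 ∧ f * gen b = gen a := Iff.rfl

theorem gen_mem (y : R) : gen y ∈ H.ring :=
  ⟨y, 1, by rw [map_one]; exact one_ne_zero, by rw [map_one, mul_one]⟩

/-- The reduction map on the Gauss valuation ring, as a function. -/
def redFun (f : H.ring) : Ft :=
  red (Classical.choose f.2) / red (Classical.choose (Classical.choose_spec f.2))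

theorem redFun_eq (f : H.ring) {a b : R} (hb : red b ≠ 0) (h : (f : Fb) * gen b = gen a) :
    H.redFun f = red a / red b := by
  have hs := Classical.choose_spec (Classical.choose_spec f.2)
  unfold redFun
  rw [div_eq_div_iff hs.1 hb]
  exact H.red_cross hs.2 h

/-- The reduction map on the Gauss valuation ring. -/
def redO : H.ring →+* Ft where
  toFun := H.redFun
  map_one' := by
    rw [H.redFun_eq 1 (a := 1) (b := 1) (by rw [map_one]; exact one_ne_zero)
      (by rw [map_one, mul_one]; rfl), map_one, div_one]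
  map_mul' := by
    intro f g
    obtain ⟨a, b, hb, h⟩ := f.2
    obtain ⟨a', b', hb', h'⟩ := g.2
    have hbb : red (b * b') ≠ 0 := by rw [map_mul]; exact mul_ne_zero hb hb'
    have hfg : ((f * g : H.ring) : Fb) * gen (b * b') = gen (a * a') := by
      rw [map_mul, map_mul, ← h, ← h']; push_cast; ring
    rw [H.redFun_eq (f * g) hbb hfg, H.redFun_eq f hb h, H.redFun_eq g hb' h', map_mul, map_mul]
    field_simp
  map_zero' := by
    rw [H.redFun_eq 0 (a := 0) (b := 1) (by rw [map_one]; exact one_ne_zero)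
      (by rw [map_zero]; simp), map_zero, zero_div]
  map_add' := by
    intro f g
    obtain ⟨a, b, hb, h⟩ := f.2
    obtain ⟨a', b', hb', h'⟩ := g.2
    have hbb : red (b * b') ≠ 0 := by rw [map_mul]; exact mul_ne_zero hb hb'
    have hfg : ((f + g : H.ring) : Fb) * gen (b * b') = gen (a * b' + a' * b) := by
      rw [map_add, map_mul, map_mul, map_mul, ← h, ← h']; push_cast; ring
    rw [H.redFun_eq (f + g) hbb hfg, H.redFun_eq f hb h, H.redFun_eq g hb' h', map_add, map_mul,
      map_mul, map_mul]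
    field_simp

theorem redO_eq (f : H.ring) {a b : R} (hb : red b ≠ 0) (h : (f : Fb) * gen b = gen a) :
    H.redO f = red a / red b := H.redFun_eq f hb h

theorem redO_gen (y : R) : H.redO ⟨gen y, H.gen_mem y⟩ = red y := by
  rw [H.redO_eq ⟨gen y, H.gen_mem y⟩ (a := y) (b := 1) (by rw [map_one]; exact one_ne_zero)
    (by rw [map_one, mul_one]), map_one, div_one]

theorem redO_surj : Function.Surjective H.redO := by
  intro φ
  obtain ⟨a, b, hb, h⟩ := H.red_surj φ
  have hgb : gen b ≠ 0 := H.gen_ne _ hb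
  have hmem : gen a / gen b ∈ H.ring := ⟨a, b, hb, by field_simp⟩
  refine ⟨⟨_, hmem⟩, ?_⟩
  rw [H.redO_eq ⟨_, hmem⟩ (a := a) (b := b) hb (by field_simp), ← h]
  field_simp

theorem redO_eq_zero_iff (x : H.ring) : H.redO x = 0 ↔ ¬ IsUnit x := by
  obtain ⟨a, b, hb, h⟩ := x.2
  rw [H.redO_eq x hb h]
  constructor
  · intro h0 hu
    obtain ⟨u, rfl⟩ := hu
    have h1 : H.redO (u : H.ring) * H.redO ((u⁻¹ : (H.ring)ˣ) : H.ring) = 1 := by
      rw [← map_mul, Units.mul_inv, map_one]
    rw [H.redO_eq _ hb h, h0, zero_mul] at h1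
    exact zero_ne_one h1
  · intro hu
    by_contra h0
    have ha : red a ≠ 0 := by
      intro ha
      rw [ha, zero_div] at h0
      exact h0 rfl
    have hga : gen a ≠ 0 := H.gen_ne _ ha
    have hgb : gen b ≠ 0 := H.gen_ne _ hb
    have hx0 : (x : Fb) ≠ 0 := by
      intro hx
      rw [hx, zero_mul] at h
      exact hga h.symm
    have hinv : (x : Fb)⁻¹ ∈ H.ring := ⟨b, a, ha, by rw [← h]; field_simp⟩
    apply hu
    refine ⟨⟨x, ⟨_, hinv⟩, ?_, ?_⟩, rfl⟩
    · apply Subtype.ext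
      show (x : Fb) * (x : Fb)⁻¹ = 1
      exact mul_inv_cancel₀ hx0
    · apply Subtype.ext
      show (x : Fb)⁻¹ * (x : Fb) = 1
      exact inv_mul_cancel₀ hx0

theorem redO_const (a : L) (ha : algebraMap L Fb a ∈ H.ring) :
    ∃ c : k, H.redO ⟨_, ha⟩ = algebraMap k Ft c := by
  obtain ⟨u, v, hv, h⟩ := ha
  rw [H.redO_eq ⟨_, ⟨u, v, hv, h⟩⟩ hv h]
  rcases eq_or_ne a 0 with rfl | ha0
  · rw [map_zero, zero_mul] at h
    have := H.red_eq_zero_of_gen_eq_zero h.symm
    exact ⟨0, by rw [this, zero_div, map_zero]⟩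
  rcases H.tri a ha0 with ⟨w, hw, hw0⟩ | ⟨w, hw, hw0⟩ | ⟨w, hw, e, -, hwe⟩
  · have h0 : gen (w * v - u) = 0 := by rw [map_sub, map_mul, hw, h, sub_self]
    have := H.red_eq_zero_of_gen_eq_zero h0
    rw [map_sub, map_mul, hw0, zero_mul, zero_sub, neg_eq_zero] at this
    exact ⟨0, by rw [this, zero_div, map_zero]⟩
  · exfalso
    have haF : algebraMap L Fb a ≠ 0 := (map_ne_zero _).mpr ha0
    have h0 : gen (w * u - v) = 0 := by
      rw [map_sub, map_mul, hw, ← h, map_inv₀]
      field_simp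
      ring
    have := H.red_eq_zero_of_gen_eq_zero h0
    rw [map_sub, map_mul, hw0, zero_mul, zero_sub, neg_eq_zero] at this
    exact hv this
  · have h0 : gen (w * v - u) = 0 := by rw [map_sub, map_mul, hw, h, sub_self]
    have := H.red_eq_zero_of_gen_eq_zero h0
    rw [map_sub, map_mul, hwe, sub_eq_zero] at this
    exact ⟨e, by rw [← this]; field_simp⟩

theorem redO_const_surj (c : k) :
    ∃ (a : L) (ha : algebraMap L Fb a ∈ H.ring), H.redO ⟨_, ha⟩ = algebraMap k Ft c := by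
  obtain ⟨a, w, hw, hwc⟩ := H.const_surj c
  have ha : algebraMap L Fb a ∈ H.ring := hw ▸ H.gen_mem w
  refine ⟨a, ha, ?_⟩
  rw [H.redO_eq ⟨_, ha⟩ (a := w) (b := 1) (by rw [map_one]; exact one_ne_zero)
    (by rw [map_one, mul_one]; exact hw.symm), map_one, div_one, hwc]

theorem redO_gauss (f : Fb) (hf : f ≠ 0) :
    ∃ a : L, a ≠ 0 ∧ ∃ h : algebraMap L Fb a * f ∈ H.ring, H.redO ⟨_, h⟩ ≠ 0 := by
  obtain ⟨c, y₁, y₂, hc, h1, h2, h⟩ := H.hGauss f hf
  have hcF : algebraMap L Fb c ≠ 0 := (map_ne_zero _).mpr hc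
  have hrel : algebraMap L Fb c⁻¹ * f * gen y₂ = gen y₁ := by
    rw [map_inv₀, mul_assoc, h]
    field_simp
  refine ⟨c⁻¹, inv_ne_zero hc, ⟨y₁, y₂, h2, hrel⟩, ?_⟩
  rw [H.redO_eq ⟨_, ⟨y₁, y₂, h2, hrel⟩⟩ h2 hrel]
  exact div_ne_zero h1 h2

end GaussHyp

end gauss

end Fermat.Agent.S37.RIR6652
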