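import Mathlib

/-!
# S37 / RI-R (helper6652): orthonormal bases of finite-dimensional subspaces (Gaussian elimination)

`K` a field, `W` a `K`-vector space with a `K`-linear map `Φ : W → F` into a valued field `(F, v)`
and coordinate functionals `lam i : W →ₗ[K] K` such that `v (Φ w) = max_i v (lam i w)` (`IsON`).
Then every finite linearly independent family in `W` can be replaced (inside its span) by an
orthonormal one (`exists_orthonormal`).  Mathlib only.
-/

set_option autoImplicit false

noncomputable section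

namespace Fermat.Agent.S37.RIR6652

section GE

variable {K W F Γ ι : Type*} [Field K] [AddCommGroup W] [Module K W] [Field F] [Algebra K F]
  [LinearOrderedCommGroupWithZero Γ]

/-- `Φ` is "orthonormal" with respect to the coordinates `lam`: the valuation of `Φ w` is the
maximum of the valuations of the coordinates of `w`. -/
def IsON (v : Valuation F Γ) (Φ : W →ₗ[K] F) (lam : ι → W →ₗ[K] K) : Prop :=
  (∀ w i, v (algebraMap K F (lam i w)) ≤ v (Φ w)) ∧
    ∀ w, w ≠ 0 → ∃ i1, lam i1 w ≠ 0 ∧ v (Φ w) = v (algebraMap K F (lam i1 w))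

theorem IsON.phi_ne_zero {v : Valuation F Γ} {Φ : W →ₗ[K] F} {lam : ι → W →ₗ[K] K}
    (h : IsON v Φ lam) {w : W} (hw : w ≠ 0) : Φ w ≠ 0 := by
  obtain ⟨i1, h1, h2⟩ := h.2 w hw
  intro h0
  rw [h0, map_zero] at h2
  have : algebraMap K F (lam i1 w) = 0 := (Valuation.zero_iff v).mp h2.symm
  exact h1 ((map_eq_zero _).mp this)

theorem valuation_smul (v : Valuation F Γ) (c : K) (f : F) :
    v (c • f) = v (algebraMap K F c) * v f := by
  rw [Algebra.smul_def, map_mul]

/-- Gaussian elimination with pivoting. -/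
theorem exists_orthonormal {v : Valuation F Γ} {Φ : W →ₗ[K] F} {lam : ι → W →ₗ[K] K}
    (hON : IsON v Φ lam) : ∀ (s : ℕ) (w : Fin s → W), LinearIndependent K w →
    ∃ m : Fin s → W, (∀ l, m l ∈ Submodule.span K (Set.range w)) ∧ (∀ l, v (Φ (m l)) ≤ 1) ∧
      ∀ (c : Fin s → K) (l : Fin s), v (algebraMap K F (c l)) ≤ v (Φ (∑ l, c l • m l)) := by
  intro s
  induction s with
  | zero =>
    intro w _
    exact ⟨fun l => Fin.elim0 l, fun l => Fin.elim0 l, fun l => Fin.elim0 l,
      fun _ l => Fin.elim0 l⟩
  | succ s ih =>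
    intro w hw
    have hw0 : w 0 ≠ 0 := hw.ne_zero 0
    obtain ⟨i1, ha, hva⟩ := hON.2 (w 0) hw0
    obtain ⟨a, haa⟩ : ∃ a : K, a = lam i1 (w 0) := ⟨_, rfl⟩
    rw [← haa] at ha hva
    have haF : algebraMap K F a ≠ 0 := (map_ne_zero _).mpr ha
    obtain ⟨m0, hm0⟩ : ∃ m0 : W, m0 = a⁻¹ • w 0 := ⟨_, rfl⟩
    have hlam0 : lam i1 m0 = 1 := by
      rw [hm0, map_smul, ← haa, smul_eq_mul, inv_mul_cancel₀ ha]
    have hv0 : v (Φ m0) = 1 := by
      rw [hm0, map_smul, valuation_smul, hva, map_inv₀, map_inv₀, inv_mul_cancel₀]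
      exact (Valuation.ne_zero_iff v).mpr haF
    obtain ⟨w', hw'⟩ : ∃ w' : Fin s → W, w' = fun l => w l.succ - lam i1 (w l.succ) • m0 :=
      ⟨_, rfl⟩
    have hlamw' : ∀ l, lam i1 (w' l) = 0 := by
      intro l
      rw [hw', map_sub, map_smul, hlam0, smul_eq_mul, mul_one, sub_self]
    have hm0span : m0 ∈ Submodule.span K (Set.range w) := by
      rw [hm0]
      exact Submodule.smul_mem _ _ (Submodule.subset_span ⟨0, rfl⟩)
    have hw'span : ∀ l, w' l ∈ Submodule.span K (Set.range w) := by
      intro l
      rw [hw']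
      exact Submodule.sub_mem _ (Submodule.subset_span ⟨l.succ, rfl⟩)
        (Submodule.smul_mem _ _ hm0span)
    have hw'li : LinearIndependent K w' := by
      rw [Fintype.linearIndependent_iff]
      intro g hg
      have hw2 := Fintype.linearIndependent_iff.mp hw
      obtain ⟨G, hG⟩ : ∃ G : Fin (s + 1) → K,
          G = Fin.cons (-(∑ l, g l * lam i1 (w l.succ)) * a⁻¹) g := ⟨_, rfl⟩
      have hsum : ∑ l, G l • w l = 0 := by
        rw [Fin.sum_univ_succ, hG]
        simp only [Fin.cons_zero, Fin.cons_succ]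
        have h1 : ∑ l, g l • w' l
            = ∑ l, g l • w l.succ - (∑ l, g l * lam i1 (w l.succ)) • m0 := by
          rw [hw', Finset.sum_smul, ← Finset.sum_sub_distrib]
          refine Finset.sum_congr rfl fun l _ => ?_
          rw [smul_sub, smul_smul]
        rw [h1, hm0] at hg
        rw [← hg, smul_smul]
        module
      have hGz := hw2 G hsum
      intro l
      have := hGz l.succ
      rw [hG, Fin.cons_succ] at this
      exact this
    obtain ⟨m', hm'span, hm'v, hm'c⟩ := ih w' hw'li
    have hlamm' : ∀ l, lam i1 (m' l) = 0 := by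
      intro l
      have hle : Submodule.span K (Set.range w') ≤ LinearMap.ker (lam i1) := by
        rw [Submodule.span_le]
        rintro _ ⟨l', rfl⟩
        exact hlamw' l'
      exact hle (hm'span l)
    refine ⟨Fin.cons m0 m', ?_, ?_, ?_⟩
    · intro l
      refine Fin.cases ?_ (fun l' => ?_) l
      · rw [Fin.cons_zero]; exact hm0span
      · rw [Fin.cons_succ]
        have hle : Submodule.span K (Set.range w') ≤ Submodule.span K (Set.range w) := by
          rw [Submodule.span_le]
          rintro _ ⟨l'', rfl⟩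
          exact hw'span l''
        exact hle (hm'span l')
    · intro l
      refine Fin.cases ?_ (fun l' => ?_) l
      · rw [Fin.cons_zero, hv0]
      · rw [Fin.cons_succ]; exact hm'v l'
    · intro c l
      obtain ⟨u', hu'⟩ : ∃ u' : W, u' = ∑ l, c l.succ • m' l := ⟨_, rfl⟩
      have hu : ∑ l, c l • (Fin.cons m0 m' : Fin (s + 1) → W) l = c 0 • m0 + u' := by
        rw [Fin.sum_univ_succ, hu']
        simp only [Fin.cons_zero, Fin.cons_succ]
      rw [hu]
      have hlamu' : lam i1 u' = 0 := by
        rw [hu', map_sum]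
        refine Finset.sum_eq_zero fun l _ => ?_
        rw [map_smul, hlamm', smul_zero]
      have hlamu : lam i1 (c 0 • m0 + u') = c 0 := by
        rw [map_add, map_smul, hlam0, hlamu', smul_eq_mul, mul_one, add_zero]
      have h0 : v (algebraMap K F (c 0)) ≤ v (Φ (c 0 • m0 + u')) := by
        have := hON.1 (c 0 • m0 + u') i1
        rwa [hlamu] at this
      refine Fin.cases h0 (fun l' => ?_) l
      have h1 : v (algebraMap K F (c l'.succ)) ≤ v (Φ u') := by
        have := hm'c (fun l => c l.succ) l'
        rwa [← hu'] at this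
      have h2 : Φ u' = Φ (c 0 • m0 + u') - c 0 • Φ m0 := by
        rw [map_add, map_smul]; ring
      have h3 : v (Φ u') ≤ v (Φ (c 0 • m0 + u')) := by
        rw [h2]
        refine (Valuation.map_sub _ _ _).trans (max_le le_rfl ?_)
        rw [valuation_smul, hv0, mul_one]
        exact h0
      exact h1.trans h3

end GE

end Fermat.Agent.S37.RIR6652
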